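import Fermat.Agent.S56.Spec

/-!
# S56 / P3 bridge, part B1–B2 (helper546): the subgroup `H_n` and `det ρ̄ = ε`

* `cycFix p n : Subgroup GQ` — the automorphisms fixing every `p^(n+1)`-th root of unity,
  normal, containing all commutators.
* `exists_isCycExp` — every `σ` has a cyclotomic exponent.
* `det_eq_of_isCycExp` — under `Hyp`, `det ρ̄(σ) = a` for every cyclotomic exponent `a` of `σ`.
-/

set_option autoImplicit false

open Polynomial IsLocalRing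

noncomputable section

namespace Fermat.Agent.S56.H546

open Fermat.Agent.S56

/-- Every automorphism acts on the `N`-th roots of unity through a power map. -/
theorem exists_pow_exponent (N : ℕ) (hN : N ≠ 0) (σ : GQ) :
    ∃ m : ℕ, ∀ μ : Qb, μ ^ N = 1 → σ μ = μ ^ m := by
  have : NeZero N := ⟨hN⟩
  obtain ⟨m, hm⟩ := rootsOfUnity.integer_power_of_ringEquiv N (σ : Qb ≃+* Qb)
  refine ⟨(m % (N : ℤ)).toNat, fun μ hμ => ?_⟩
  have hNz : (N : ℤ) ≠ 0 := by exact_mod_cast hN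
  have hnn : 0 ≤ m % (N : ℤ) := Int.emod_nonneg _ hNz
  set t : rootsOfUnity N Qb := rootsOfUnity.mkOfPowEq μ hμ with ht
  have htμ : ((t : Qbˣ) : Qb) = μ := rootsOfUnity.val_mkOfPowEq_coe _ _
  have h1 := hm t
  have htN : (t : Qbˣ) ^ (N : ℤ) = 1 := by
    rw [zpow_natCast]
    exact (mem_rootsOfUnity _ _).1 t.2
  have h2 : ((t : Qbˣ) ^ m : Qbˣ) = (t : Qbˣ) ^ ((m % (N : ℤ)).toNat) := by
    rw [zpow_eq_zpow_emod m htN]
    conv_lhs => rw [← Int.toNat_of_nonneg hnn]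
    rw [zpow_natCast]
  rw [h2] at h1
  rw [← htμ]
  simpa using h1

/-- Every automorphism has a cyclotomic exponent on `μ_p`. -/
theorem exists_isCycExp (p : ℕ) (hp : p ≠ 0) (σ : GQ) : ∃ a : ℕ, IsCycExp p σ a :=
  exists_pow_exponent p hp σ

/-- `H_n`: the automorphisms fixing every `p^(n+1)`-th root of unity. -/
def cycFix (p n : ℕ) : Subgroup GQ where
  carrier := {σ | ∀ μ : Qb, μ ^ p ^ (n + 1) = 1 → σ μ = μ}
  one_mem' := fun _ _ => rfl
  mul_mem' := by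
    intro σ τ hσ hτ μ hμ
    rw [AlgEquiv.mul_apply, hτ μ hμ, hσ μ hμ]
  inv_mem' := by
    intro σ hσ μ hμ
    have h := hσ μ hμ
    calc σ⁻¹ μ = σ⁻¹ (σ μ) := by rw [h]
      _ = μ := by
        change σ.symm (σ μ) = μ
        exact σ.symm_apply_apply μ

theorem mem_cycFix {p n : ℕ} {σ : GQ} :
    σ ∈ cycFix p n ↔ ∀ μ : Qb, μ ^ p ^ (n + 1) = 1 → σ μ = μ := Iff.rfl

/-- Images of roots of unity are roots of unity. -/
theorem map_pow_eq_one (σ : GQ) {N : ℕ} {μ : Qb} (hμ : μ ^ N = 1) : (σ μ) ^ N = 1 := by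
  rw [← map_pow, hμ, map_one]

instance cycFix_normal (p n : ℕ) : (cycFix p n).Normal := by
  refine ⟨fun σ hσ g μ hμ => ?_⟩
  have h1 : (g⁻¹ μ) ^ p ^ (n + 1) = 1 := map_pow_eq_one g⁻¹ hμ
  have h2 := hσ _ h1
  rw [AlgEquiv.mul_apply, AlgEquiv.mul_apply, h2]
  change g (g.symm μ) = μ
  exact g.apply_symm_apply μ

/-- `G_ℚ / H_n` is abelian: `στ` and `τσ` agree on roots of unity. -/
theorem mul_comm_on_roots (p n : ℕ) (hp : p ≠ 0) (σ τ : GQ) (μ : Qb)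
    (hμ : μ ^ p ^ (n + 1) = 1) : (σ * τ) μ = (τ * σ) μ := by
  obtain ⟨a, ha⟩ := exists_pow_exponent (p ^ (n + 1)) (pow_ne_zero _ hp) σ
  obtain ⟨b, hb⟩ := exists_pow_exponent (p ^ (n + 1)) (pow_ne_zero _ hp) τ
  rw [AlgEquiv.mul_apply, AlgEquiv.mul_apply, hb μ hμ, ha μ hμ, map_pow, map_pow, ha μ hμ,
    hb μ hμ, ← pow_mul, ← pow_mul, mul_comm]

/-- Every commutator lies in `H_n`. -/
theorem commutator_mem_cycFix (p n : ℕ) (hp : p ≠ 0) (σ τ : GQ) :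
    σ * τ * σ⁻¹ * τ⁻¹ ∈ cycFix p n := by
  intro μ hμ
  have h1 : (τ⁻¹ μ) ^ p ^ (n + 1) = 1 := map_pow_eq_one τ⁻¹ hμ
  have h2 : (σ⁻¹ (τ⁻¹ μ)) ^ p ^ (n + 1) = 1 := map_pow_eq_one σ⁻¹ h1
  have h3 := mul_comm_on_roots p n hp σ τ _ h2
  have e : (σ * τ * σ⁻¹ * τ⁻¹) μ = (σ * τ) (σ⁻¹ (τ⁻¹ μ)) := by
    simp only [AlgEquiv.mul_apply]
  rw [e, h3]
  simp only [AlgEquiv.mul_apply]
  have e1 : σ (σ⁻¹ (τ⁻¹ μ)) = τ⁻¹ μ := by
    change σ (σ.symm (τ⁻¹ μ)) = τ⁻¹ μ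
    exact σ.apply_symm_apply _
  rw [e1]
  change τ (τ.symm μ) = μ
  exact τ.apply_symm_apply μ

/-- `g⁻¹ σ g ∈ H_n` for `σ ∈ H_n`. -/
theorem conj_mem_cycFix' {p n : ℕ} {σ : GQ} (hσ : σ ∈ cycFix p n) (g : GQ) :
    g⁻¹ * σ * g ∈ cycFix p n := by
  have := (cycFix_normal p n).conj_mem σ hσ g⁻¹
  simpa using this

/-- Elements of `H_n` have cyclotomic exponent `1`. -/
theorem isCycExp_one_of_mem_cycFix {p n : ℕ} {σ : GQ} (hσ : σ ∈ cycFix p n) :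
    IsCycExp p σ 1 := by
  intro μ hμ
  rw [pow_one]
  apply hσ
  rw [pow_succ, pow_mul', hμ, one_pow]

section Det

variable {𝒪 : Type} [CommRing 𝒪] [IsDomain 𝒪] [IsDiscreteValuationRing 𝒪]
  {p : ℕ} {ρbar : ResidualGaloisRep (ResidueField 𝒪)} {S Smin : Finset ℕ}

/-- `det ρ̄ = ε`: the determinant is the reduction of any cyclotomic exponent. -/
theorem det_eq_of_isCycExp (h : Hyp 𝒪 p ρbar S Smin) {σ : GQ} {a : ℕ} (ha : IsCycExp p σ a) :
    LinearMap.det (ρbar.ρ σ) = (a : ResidueField 𝒪) := by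
  obtain ⟨hpk, hd⟩ := h.hdet
  have h1 := hd 1 σ a (fun μ hμ => ha μ (by simpa using hμ))
  have hp0 : (p : ResidueField 𝒪) = 0 := by
    have := hpk
    rw [IsLocalRing.maximalIdeal_eq_bot] at this
    simpa using this
  have h2 : (((p ^ 1 : ℕ)) : ResidueField 𝒪) = 0 := by
    rw [pow_one]; exact hp0
  rw [h2] at h1
  have h3 : LinearMap.det ((GaloisRepAdic.ofResidualGaloisRep ρbar).ρ σ) - (a : ResidueField 𝒪)
      = 0 := by
    simpa [Ideal.mem_span_singleton] using h1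
  exact sub_eq_zero.1 h3

/-- The characteristic of the residue field is `p`. -/
theorem natCast_p_eq_zero (h : Hyp 𝒪 p ρbar S Smin) : (p : ResidueField 𝒪) = 0 := by
  obtain ⟨hpk, -⟩ := h.hdet
  rw [IsLocalRing.maximalIdeal_eq_bot] at hpk
  simpa using hpk

/-- `det ρ̄ = 1` on `H_n`. -/
theorem det_eq_one_of_mem_cycFix (h : Hyp 𝒪 p ρbar S Smin) {n : ℕ} {σ : GQ}
    (hσ : σ ∈ cycFix p n) : LinearMap.det (ρbar.ρ σ) = 1 := by
  rw [det_eq_of_isCycExp h (isCycExp_one_of_mem_cycFix hσ), Nat.cast_one]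

/-- `2 ≠ 0` in the residue field. -/
theorem two_ne_zero_residue (h : Hyp 𝒪 p ρbar S Smin) : (2 : ResidueField 𝒪) ≠ 0 := by
  intro h2
  have hp0 := natCast_p_eq_zero h
  have hpp := h.hp
  -- p odd: gcd(p,2) = 1
  have hcop : Nat.Coprime p 2 := by
    rw [Nat.coprime_primes hpp Nat.prime_two]
    exact h.hp2
  obtain ⟨u, v, huv⟩ : ∃ u v : ℤ, u * p + v * 2 = 1 := by
    have := Nat.gcd_eq_gcd_ab p 2
    rw [hcop.gcd_eq_one] at this
    exact ⟨Nat.gcdA p 2, Nat.gcdB p 2, by push_cast at this; linarith⟩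
  have : ((u * p + v * 2 : ℤ) : ResidueField 𝒪) = 1 := by rw [huv]; simp
  push_cast at this
  rw [hp0, h2] at this
  simp at this

end Det

end Fermat.Agent.S56.H546

end
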