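import Fermat.Agent.S56.H546.Clifford

/-!
# S56 / P3 bridge, part B5(c), B7 (helper546): Burnside in dimension two and regular elements

For `H` normal in `G_ℚ`, containing the commutators, with `det ρ̄ = 1` on `H`, under `Hyp`:

* `trace_form_nondegenerate` — if `tr (X * ρ̄ s) = 0` for all `s ∈ H` then `X = 0`
  (equivalently: `ρ̄(H)` spans `End_k V`);
* `exists_trace_ne_zero` — for `X ≠ 0` some `s ∈ H` has `tr (X * ρ̄ s) ≠ 0`;
* `exists_regular_mem` — some `s ∈ H` has two distinct eigenvalues in `k`;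
* `twElement_part2` — the second half of `Spec.TWElementStatement`, verbatim.
-/

set_option autoImplicit false

open Polynomial IsLocalRing

noncomputable section

namespace Fermat.Agent.S56.H546

open Fermat.Agent.S56

section Charpoly

variable {k : Type} [Field k] {V : Type} [AddCommGroup V] [Module k V] [Module.Finite k V]

/-- The characteristic polynomial of an endomorphism of a plane. -/
theorem charpoly_plane (hV : Module.finrank k V = 2) (f : Module.End k V) :
    LinearMap.charpoly f = X ^ 2 - C (LinearMap.trace k V f) * X + C (LinearMap.det f) := by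
  let b : Module.Basis (Fin 2) k V := Module.finBasisOfFinrankEq k V hV
  rw [← LinearMap.charpoly_toMatrix f b, Matrix.charpoly_fin_two,
    ← LinearMap.trace_eq_matrix_trace k b f, LinearMap.det_toMatrix]

/-- Trace and determinant from a split characteristic polynomial. -/
theorem trace_det_of_charpoly (hV : Module.finrank k V = 2) {f : Module.End k V} {α β : k}
    (hf : LinearMap.charpoly f = (X - C α) * (X - C β)) :
    LinearMap.trace k V f = α + β ∧ LinearMap.det f = α * β := by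
  rw [charpoly_plane hV f] at hf
  have h1 := congrArg (fun q : k[X] => q.coeff 1) hf
  have h0 := congrArg (fun q : k[X] => q.coeff 0) hf
  have e : (X - C α) * (X - C β) = X ^ 2 - C (α + β) * X + C (α * β) := by
    simp only [map_add, map_mul]; ring
  rw [e] at h1 h0
  simp only [coeff_add, coeff_sub, coeff_X_pow, coeff_C_mul, coeff_X_one,
    coeff_X_zero, coeff_C] at h1 h0
  norm_num at h1 h0
  exact ⟨by linear_combination -h1, by linear_combination h0⟩

/-- A split characteristic polynomial from trace and determinant. -/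
theorem charpoly_of_trace_det (hV : Module.finrank k V = 2) {f : Module.End k V} {α β : k}
    (ht : LinearMap.trace k V f = α + β) (hd : LinearMap.det f = α * β) :
    LinearMap.charpoly f = (X - C α) * (X - C β) := by
  rw [charpoly_plane hV f, ht, hd]
  simp only [map_add, map_mul]; ring

/-- Cayley–Hamilton for a double eigenvalue. -/
theorem sq_eq_zero_of_charpoly (hV : Module.finrank k V = 2) {f : Module.End k V} {α : k}
    (hf : LinearMap.charpoly f = (X - C α) * (X - C α)) :
    (f - α • (1 : Module.End k V)) * (f - α • (1 : Module.End k V)) = 0 := by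
  have h := LinearMap.aeval_self_charpoly f
  rw [hf] at h
  simpa [Algebra.algebraMap_eq_smul_one] using h

end Charpoly

section Burnside

variable {𝒪 : Type} [CommRing 𝒪] [IsDomain 𝒪] [IsDiscreteValuationRing 𝒪]
  {p : ℕ} {ρbar : ResidualGaloisRep (ResidueField 𝒪)} {S Smin : Finset ℕ}

/-- Rank-one step of Burnside's theorem. -/
theorem burnside_aux (h : Hyp 𝒪 p ρbar S Smin) {H : Subgroup GQ}
    (hH : IsDetOneNormal ρbar H) (Y : Module.End (ResidueField 𝒪) ρbar.V)
    (w : ρbar.V) (hw : w ≠ 0) (hYw : Y w = 0) (hY : Y ≠ 0)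
    (htr : ∀ s ∈ H, LinearMap.trace (ResidueField 𝒪) ρbar.V (Y * ρbar.ρ s) = 0) : False := by
  obtain ⟨v, hv⟩ : ∃ v : ρbar.V, Y v ≠ 0 := by
    by_contra hcon
    push Not at hcon
    exact hY (LinearMap.ext fun x => by simpa using hcon x)
  have hvw : ∀ c : ResidueField 𝒪, v ≠ c • w := by
    rintro c rfl
    exact hv (by rw [map_smul, hYw, smul_zero])
  obtain ⟨b, hb0, hb1⟩ := exists_basis_pair ρbar.finrank_eq hw hvw
  set u := Y v with hu
  have key : ∀ s ∈ H, ρbar.ρ s u = (b.repr (ρbar.ρ s u) 0) • w := by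
    intro s hs
    have h1 := htr s hs
    rw [LinearMap.trace_mul_comm, LinearMap.trace_eq_matrix_trace _ b, Matrix.trace_fin_two,
      LinearMap.toMatrix_apply, LinearMap.toMatrix_apply, Module.End.mul_apply,
      Module.End.mul_apply, hb0, hb1, hYw] at h1
    simp only [map_zero, Finsupp.coe_zero, Pi.zero_apply, zero_add] at h1
    have h2 : ρbar.ρ s u = b.repr (ρbar.ρ s u) 0 • b 0 + b.repr (ρbar.ρ s u) 1 • b 1 := by
      conv_lhs => rw [← b.sum_repr (ρbar.ρ s u)]
      rw [Fin.sum_univ_two]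
    rw [hu, h1, zero_smul, add_zero, hb0] at h2
    rw [hu]
    exact h2
  have hu1 := key 1 H.one_mem
  rw [map_one, Module.End.one_apply] at hu1
  set c₀ := b.repr u 0 with hc₀
  have hc₀ne : c₀ ≠ 0 := by
    intro h0
    rw [h0, zero_smul] at hu1
    exact hv hu1
  refine no_stable_line_of_normal h hH w hw (fun s hs => ?_)
  refine ⟨c₀⁻¹ * b.repr (ρbar.ρ s u) 0, ?_⟩
  have h3 := key s hs
  have h4 : ρbar.ρ s w = c₀⁻¹ • ρbar.ρ s u := by
    conv_rhs => rw [hu1]
    rw [map_smul, smul_smul, inv_mul_cancel₀ hc₀ne, one_smul]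
  calc ρbar.ρ s w = c₀⁻¹ • ρbar.ρ s u := h4
    _ = c₀⁻¹ • ((b.repr (ρbar.ρ s u) 0) • w) := by rw [← h3]
    _ = (c₀⁻¹ * b.repr (ρbar.ρ s u) 0) • w := smul_smul _ _ _

/-- **B5(c), Burnside.** The trace form is nondegenerate on the span of `ρ̄(H)`. -/
theorem trace_form_nondegenerate (h : Hyp 𝒪 p ρbar S Smin) {H : Subgroup GQ}
    (hH : IsDetOneNormal ρbar H) (X : Module.End (ResidueField 𝒪) ρbar.V)
    (htr : ∀ s ∈ H, LinearMap.trace (ResidueField 𝒪) ρbar.V (X * ρbar.ρ s) = 0) : X = 0 := by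
  by_contra hX
  by_cases hker : ∃ w : ρbar.V, w ≠ 0 ∧ X w = 0
  · obtain ⟨w, hw, hXw⟩ := hker
    exact burnside_aux h hH X w hw hXw hX htr
  · push Not at hker
    obtain ⟨s₁, hs₁, hns⟩ := exists_nonscalar_mem h hH
    obtain ⟨α, v₁, hv₁, hev⟩ := exists_eigenvector h s₁
    set Y : Module.End (ResidueField 𝒪) ρbar.V :=
      X * (ρbar.ρ s₁ - α • (1 : Module.End (ResidueField 𝒪) ρbar.V)) with hYdef
    have hYv : Y v₁ = 0 := by
      rw [hYdef, Module.End.mul_apply, LinearMap.sub_apply, hev]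
      simp
    have hY : Y ≠ 0 := by
      intro hY0
      apply hns α
      apply LinearMap.ext
      intro x
      have h1 : Y x = 0 := by rw [hY0]; rfl
      rw [hYdef, Module.End.mul_apply] at h1
      have h2 : (ρbar.ρ s₁ - α • (1 : Module.End (ResidueField 𝒪) ρbar.V)) x = 0 := by
        by_contra hne
        exact hker _ hne h1
      rw [LinearMap.sub_apply] at h2
      exact sub_eq_zero.1 h2
    refine burnside_aux h hH Y v₁ hv₁ hYv hY (fun s hs => ?_)
    have e : Y * ρbar.ρ s = X * ρbar.ρ (s₁ * s) - α • (X * ρbar.ρ s) := by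
      rw [hYdef, map_mul, mul_assoc, sub_mul, mul_sub, smul_mul_assoc, one_mul, mul_smul_comm]
    rw [e, map_sub, map_smul, htr _ (H.mul_mem hs₁ hs), htr s hs, smul_zero, sub_zero]

/-- For `X ≠ 0` some `s ∈ H` has `tr (X * ρ̄ s) ≠ 0`. -/
theorem exists_trace_ne_zero (h : Hyp 𝒪 p ρbar S Smin) {H : Subgroup GQ}
    (hH : IsDetOneNormal ρbar H) {X : Module.End (ResidueField 𝒪) ρbar.V} (hX : X ≠ 0) :
    ∃ s ∈ H, LinearMap.trace (ResidueField 𝒪) ρbar.V (X * ρbar.ρ s) ≠ 0 := by
  by_contra hcon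
  push Not at hcon
  exact hX (trace_form_nondegenerate h hH X hcon)

/-- Three pairwise distinct elements cannot all be `±2`. -/
theorem three_values_aux {k : Type} [Field k] {a b c : k} (ha : a = 2 ∨ a = -2)
    (hb : b = 2 ∨ b = -2) (hc : c = 2 ∨ c = -2) (hab : a ≠ b) (hac : a ≠ c) (hbc : b ≠ c) :
    False := by
  rcases ha with rfl | rfl <;> rcases hb with rfl | rfl <;> rcases hc with rfl | rfl <;>
    simp_all

/-- **B7.** Some element of `H` has two distinct eigenvalues in `k`. -/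
theorem exists_regular_mem (h : Hyp 𝒪 p ρbar S Smin) {H : Subgroup GQ}
    (hH : IsDetOneNormal ρbar H) :
    ∃ s ∈ H, ∃ α β : ResidueField 𝒪, α ≠ β ∧
      LinearMap.charpoly (ρbar.ρ s) = (X - C α) * (X - C β) := by
  by_contra hcon
  push Not at hcon
  have h2 : (2 : ResidueField 𝒪) ≠ 0 := two_ne_zero_residue h
  -- every element of `H` has a double eigenvalue `±1`
  have hdouble : ∀ s ∈ H, ∃ α : ResidueField 𝒪, (α = 1 ∨ α = -1) ∧
      LinearMap.charpoly (ρbar.ρ s) = (X - C α) * (X - C α) := by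
    intro s hs
    obtain ⟨α, β, hαβ⟩ := h.hsplit s
    have hab : α = β := by
      by_contra hne
      exact hcon s hs α β hne hαβ
    subst hab
    refine ⟨α, ?_, hαβ⟩
    have hd := (trace_det_of_charpoly ρbar.finrank_eq hαβ).2
    rw [hH.det_eq_one s hs] at hd
    have : (α - 1) * (α + 1) = 0 := by linear_combination -hd
    rcases mul_eq_zero.1 this with h1 | h1
    · exact Or.inl (sub_eq_zero.1 h1)
    · exact Or.inr (eq_neg_of_add_eq_zero_left h1)
  have htrace : ∀ s ∈ H, LinearMap.trace (ResidueField 𝒪) ρbar.V (ρbar.ρ s) = 2 ∨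
      LinearMap.trace (ResidueField 𝒪) ρbar.V (ρbar.ρ s) = -2 := by
    intro s hs
    obtain ⟨α, hα, hcp⟩ := hdouble s hs
    have ht := (trace_det_of_charpoly ρbar.finrank_eq hcp).1
    rcases hα with rfl | rfl
    · left; rw [ht]; norm_num
    · right; rw [ht]; norm_num
  obtain ⟨s₁, hs₁, hns⟩ := exists_nonscalar_mem h hH
  obtain ⟨α, hα, hcp⟩ := hdouble s₁ hs₁
  have hα2 : α * α = 1 := by rcases hα with rfl | rfl <;> norm_num
  have hα0 : α ≠ 0 := by
    rintro rfl
    simp at hα2
  set N : Module.End (ResidueField 𝒪) ρbar.V :=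
    ρbar.ρ s₁ - α • (1 : Module.End (ResidueField 𝒪) ρbar.V) with hN
  have hNN : N * N = 0 := sq_eq_zero_of_charpoly ρbar.finrank_eq hcp
  have hN0 : N ≠ 0 := by
    intro h0
    exact hns α (sub_eq_zero.1 (hN ▸ h0))
  obtain ⟨s₀, hs₀, hc⟩ := exists_trace_ne_zero h hH hN0
  set c := LinearMap.trace (ResidueField 𝒪) ρbar.V (N * ρbar.ρ s₀) with hcdef
  have hρ1 : ρbar.ρ s₁ = α • (1 : Module.End (ResidueField 𝒪) ρbar.V) + N := by
    rw [hN]; abel
  have hcommN : (α • (1 : Module.End (ResidueField 𝒪) ρbar.V)) * N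
      = N * (α • (1 : Module.End (ResidueField 𝒪) ρbar.V)) := by
    rw [smul_mul_assoc, one_mul, mul_smul_comm, mul_one]
  have hsq : ρbar.ρ (s₁ * s₁) = (1 : Module.End (ResidueField 𝒪) ρbar.V) + (2 * α) • N := by
    rw [map_mul, hρ1]
    have e : (α • (1 : Module.End (ResidueField 𝒪) ρbar.V) + N) *
        (α • (1 : Module.End (ResidueField 𝒪) ρbar.V) + N)
        = (α * α) • (1 : Module.End (ResidueField 𝒪) ρbar.V) + (2 * α) • N + N * N := by
      simp only [add_mul, mul_add, smul_mul_assoc, mul_smul_comm, one_mul, mul_one]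
      rw [smul_add, smul_smul, two_mul, add_smul]
      abel
    rw [e, hNN, hα2, one_smul, add_zero]
  have hfour : ρbar.ρ (s₁ * s₁ * (s₁ * s₁))
      = (1 : Module.End (ResidueField 𝒪) ρbar.V) + (4 * α) • N := by
    rw [map_mul, hsq]
    have e : ((1 : Module.End (ResidueField 𝒪) ρbar.V) + (2 * α) • N) *
        ((1 : Module.End (ResidueField 𝒪) ρbar.V) + (2 * α) • N)
        = (1 : Module.End (ResidueField 𝒪) ρbar.V) + (4 * α) • N
          + (2 * α * (2 * α)) • (N * N) := by
      simp only [add_mul, mul_add, smul_mul_assoc, mul_smul_comm, one_mul, mul_one]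
      have e4 : (4 : ResidueField 𝒪) * α = 2 * α + 2 * α := by ring
      rw [smul_add, smul_smul, e4, add_smul]
      abel
    rw [e, hNN, smul_zero, add_zero]
  have ht0 := htrace s₀ hs₀
  have ht2 := htrace (s₁ * s₁ * s₀) (H.mul_mem (H.mul_mem hs₁ hs₁) hs₀)
  have ht4 := htrace (s₁ * s₁ * (s₁ * s₁) * s₀)
    (H.mul_mem (H.mul_mem (H.mul_mem hs₁ hs₁) (H.mul_mem hs₁ hs₁)) hs₀)
  have e2 : LinearMap.trace (ResidueField 𝒪) ρbar.V (ρbar.ρ (s₁ * s₁ * s₀))
      = LinearMap.trace (ResidueField 𝒪) ρbar.V (ρbar.ρ s₀) + 2 * α * c := by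
    rw [map_mul, hsq, add_mul, one_mul, smul_mul_assoc, map_add, map_smul, smul_eq_mul]
  have e4 : LinearMap.trace (ResidueField 𝒪) ρbar.V (ρbar.ρ (s₁ * s₁ * (s₁ * s₁) * s₀))
      = LinearMap.trace (ResidueField 𝒪) ρbar.V (ρbar.ρ s₀) + 4 * α * c := by
    rw [map_mul, hfour, add_mul, one_mul, smul_mul_assoc, map_add, map_smul, smul_eq_mul]
  rw [e2] at ht2
  rw [e4] at ht4
  have h4 : (4 : ResidueField 𝒪) ≠ 0 := by
    have : (4 : ResidueField 𝒪) = 2 * 2 := by norm_num
    rw [this]
    exact mul_ne_zero h2 h2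
  refine three_values_aux ht0 ht2 ht4 ?_ ?_ ?_
  · intro e
    have : 2 * α * c = 0 := by linear_combination -e
    exact mul_ne_zero (mul_ne_zero h2 hα0) hc this
  · intro e
    have : 4 * α * c = 0 := by linear_combination -e
    exact mul_ne_zero (mul_ne_zero h4 hα0) hc this
  · intro e
    have : 2 * α * c = 0 := by linear_combination -e
    exact mul_ne_zero (mul_ne_zero h2 hα0) hc this

/-- **Second half of `TWElementStatement`**, verbatim. -/
theorem twElement_part2 (h : Hyp 𝒪 p ρbar S Smin) (n : ℕ) :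
    ∃ σ : GQ, (∀ μ : Qb, μ ^ p ^ (n + 1) = 1 → σ μ = μ) ∧
      ∃ α β : ResidueField 𝒪, α ≠ β ∧
        LinearMap.charpoly (ρbar.ρ σ) = (X - C α) * (X - C β) := by
  obtain ⟨s, hs, α, β, hαβ, hcp⟩ := exists_regular_mem h (isDetOneNormal_cycFix h n)
  exact ⟨s, hs, α, β, hαβ, hcp⟩

end Burnside

end Fermat.Agent.S56.H546

end
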