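import Fermat.Agent.S56.H546.Line

/-!
# S56 / P3 bridge, part B5 (helper546): Clifford theory in dimension two, `k`-rationally

For a normal subgroup `H` of `G_ℚ` containing all commutators and on which `det ρ̄ = 1`
(e.g. `H = cycFix p n`), under `Hyp`:

* `exists_nonscalar_mem` — `ρ̄(H)` is not contained in the scalars;
* `no_stable_line_of_normal` — `H` has no stable line;
* `trace_form_nondegenerate` — (Burnside) if `tr (X * ρ̄ s) = 0` for all `s ∈ H` then `X = 0`.
-/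

set_option autoImplicit false

open Polynomial IsLocalRing

noncomputable section

namespace Fermat.Agent.S56.H546

open Fermat.Agent.S56

section Subgroups

variable {k : Type} [Field k] (ρbar : ResidualGaloisRep k)

/-- `ρ̄(σ⁻¹)` is a left inverse of `ρ̄(σ)`. -/
theorem rho_inv_mul (σ : GQ) : ρbar.ρ σ⁻¹ * ρbar.ρ σ = 1 := by
  rw [← map_mul, inv_mul_cancel, map_one]

/-- `ρ̄(σ⁻¹)` is a right inverse of `ρ̄(σ)`. -/
theorem rho_mul_inv (σ : GQ) : ρbar.ρ σ * ρbar.ρ σ⁻¹ = 1 := by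
  rw [← map_mul, mul_inv_cancel, map_one]

theorem rho_inv_apply (σ : GQ) (v : ρbar.V) : ρbar.ρ σ⁻¹ (ρbar.ρ σ v) = v := by
  have := congrArg (fun f : Module.End k ρbar.V => f v) (rho_inv_mul ρbar σ)
  simpa using this

theorem rho_apply_inv (σ : GQ) (v : ρbar.V) : ρbar.ρ σ (ρbar.ρ σ⁻¹ v) = v := by
  have := congrArg (fun f : Module.End k ρbar.V => f v) (rho_mul_inv ρbar σ)
  simpa using this

theorem rho_injective (σ : GQ) : Function.Injective (ρbar.ρ σ) := by
  intro v w hvw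
  have := congrArg (ρbar.ρ σ⁻¹) hvw
  simpa [rho_inv_apply] using this

theorem rho_ne_zero (σ : GQ) {v : ρbar.V} (hv : v ≠ 0) : ρbar.ρ σ v ≠ 0 := by
  intro h0
  apply hv
  apply rho_injective ρbar σ
  rw [h0, map_zero]

/-- The subgroup of elements commuting with an endomorphism `A`. -/
def centralizerOf (A : Module.End k ρbar.V) : Subgroup GQ where
  carrier := {σ | ρbar.ρ σ * A = A * ρbar.ρ σ}
  one_mem' := by simp
  mul_mem' := by
    intro a b ha hb
    simp only [Set.mem_setOf_eq] at ha hb ⊢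
    rw [map_mul, mul_assoc, hb, ← mul_assoc, ha, mul_assoc]
  inv_mem' := by
    intro a ha
    simp only [Set.mem_setOf_eq] at ha ⊢
    calc ρbar.ρ a⁻¹ * A = ρbar.ρ a⁻¹ * (A * ρbar.ρ a) * ρbar.ρ a⁻¹ := by
          rw [mul_assoc, mul_assoc, rho_mul_inv, mul_one]
      _ = ρbar.ρ a⁻¹ * (ρbar.ρ a * A) * ρbar.ρ a⁻¹ := by rw [ha]
      _ = A * ρbar.ρ a⁻¹ := by
          rw [← mul_assoc, rho_inv_mul, one_mul]

theorem mem_centralizerOf {A : Module.End k ρbar.V} {σ : GQ} :
    σ ∈ centralizerOf ρbar A ↔ ρbar.ρ σ * A = A * ρbar.ρ σ := Iff.rfl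

/-- If every element commutes or anticommutes with `A`, the centralizer has index `≤ 2`. -/
theorem centralizerOf_top_or_index_two (A : Module.End k ρbar.V)
    (hA : ∀ σ : GQ, ρbar.ρ σ * A = A * ρbar.ρ σ ∨ ρbar.ρ σ * A = -(A * ρbar.ρ σ)) :
    centralizerOf ρbar A = ⊤ ∨ (centralizerOf ρbar A).index = 2 := by
  apply top_or_index_two
  intro a b ha hb
  have ha' : ρbar.ρ a * A = -(A * ρbar.ρ a) := (hA a).resolve_left ha
  have hb' : ρbar.ρ b * A = -(A * ρbar.ρ b) := (hA b).resolve_left hb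
  rw [mem_centralizerOf, map_mul, mul_assoc, hb', mul_neg, ← mul_assoc, ha', neg_mul, neg_neg,
    mul_assoc]

/-- The stabilizer of the line through `v`. -/
def lineStab (v : ρbar.V) : Subgroup GQ where
  carrier := {σ | ∃ c : kˣ, ρbar.ρ σ v = (c : k) • v}
  one_mem' := ⟨1, by simp⟩
  mul_mem' := by
    rintro a b ⟨c, hc⟩ ⟨d, hd⟩
    refine ⟨d * c, ?_⟩
    rw [map_mul, Module.End.mul_apply, hd, map_smul, hc, smul_smul, Units.val_mul]
  inv_mem' := by
    rintro a ⟨c, hc⟩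
    refine ⟨c⁻¹, ?_⟩
    have h1 : ρbar.ρ a⁻¹ (ρbar.ρ a v) = v := rho_inv_apply ρbar a v
    rw [hc, map_smul] at h1
    calc ρbar.ρ a⁻¹ v = ((c⁻¹ : kˣ) : k) • ((c : k) • ρbar.ρ a⁻¹ v) := by
          rw [smul_smul, ← Units.val_mul, inv_mul_cancel, Units.val_one, one_smul]
      _ = ((c⁻¹ : kˣ) : k) • v := by rw [h1]

theorem mem_lineStab_iff {v : ρbar.V} (hv : v ≠ 0) {σ : GQ} :
    σ ∈ lineStab ρbar v ↔ ∃ c : k, ρbar.ρ σ v = c • v := by
  constructor
  · rintro ⟨c, hc⟩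
    exact ⟨c, hc⟩
  · rintro ⟨c, hc⟩
    have hc0 : c ≠ 0 := by
      rintro rfl
      rw [zero_smul] at hc
      exact rho_ne_zero ρbar σ hv hc
    exact ⟨Units.mk0 c hc0, by simpa using hc⟩

end Subgroups

section Clifford

variable {𝒪 : Type} [CommRing 𝒪] [IsDomain 𝒪] [IsDiscreteValuationRing 𝒪]
  {p : ℕ} {ρbar : ResidualGaloisRep (ResidueField 𝒪)} {S Smin : Finset ℕ}

/-- The hypotheses on the normal subgroup `H` (satisfied by `cycFix p n`). -/
structure IsDetOneNormal (ρbar : ResidualGaloisRep (ResidueField 𝒪)) (H : Subgroup GQ) :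
    Prop where
  conj_mem : ∀ s ∈ H, ∀ g : GQ, g⁻¹ * s * g ∈ H
  commutator_mem : ∀ σ τ : GQ, σ * τ * σ⁻¹ * τ⁻¹ ∈ H
  det_eq_one : ∀ s ∈ H, LinearMap.det (ρbar.ρ s) = 1

theorem isDetOneNormal_cycFix (h : Hyp 𝒪 p ρbar S Smin) (n : ℕ) :
    IsDetOneNormal ρbar (cycFix p n) where
  conj_mem := fun _ hs g => conj_mem_cycFix' hs g
  commutator_mem := commutator_mem_cycFix p n h.hp.ne_zero
  det_eq_one := fun _ hs => det_eq_one_of_mem_cycFix h hs

/-- A scalar of determinant one is `±1`. -/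
theorem scalar_det_one {z : ResidueField 𝒪}
    (hz : LinearMap.det (z • (1 : Module.End (ResidueField 𝒪) ρbar.V)) = 1) :
    z = 1 ∨ z = -1 := by
  have hz2 : z ^ 2 = 1 := by
    rw [LinearMap.det_smul, ρbar.finrank_eq] at hz
    simpa using hz
  have : (z - 1) * (z + 1) = 0 := by linear_combination hz2
  rcases mul_eq_zero.1 this with h1 | h1
  · exact Or.inl (sub_eq_zero.1 h1)
  · exact Or.inr (eq_neg_of_add_eq_zero_left h1)

/-- **B5(a).** `ρ̄(H)` is not contained in the scalars. -/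
theorem exists_nonscalar_mem (h : Hyp 𝒪 p ρbar S Smin) {H : Subgroup GQ}
    (hH : IsDetOneNormal ρbar H) :
    ∃ s ∈ H, ∀ z : ResidueField 𝒪,
      ρbar.ρ s ≠ z • (1 : Module.End (ResidueField 𝒪) ρbar.V) := by
  by_contra hcon
  push Not at hcon
  obtain ⟨g, hg⟩ := exists_nonscalar h
  obtain ⟨α, v, hv, hgv⟩ := exists_eigenvector h g
  have key : ∀ σ : GQ, ρbar.ρ σ * ρbar.ρ g = ρbar.ρ g * ρbar.ρ σ ∨
      ρbar.ρ σ * ρbar.ρ g = -(ρbar.ρ g * ρbar.ρ σ) := by
    intro σ
    have hmem := hH.commutator_mem σ g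
    obtain ⟨z, hz⟩ := hcon _ hmem
    have hdet := hH.det_eq_one _ hmem
    rw [hz] at hdet
    have hz' : ρbar.ρ σ * ρbar.ρ g = z • (ρbar.ρ g * ρbar.ρ σ) := by
      have e : ρbar.ρ (σ * g * σ⁻¹ * g⁻¹) * (ρbar.ρ g * ρbar.ρ σ) = ρbar.ρ σ * ρbar.ρ g := by
        rw [← map_mul, ← map_mul, ← map_mul]
        congr 1
        group
      rw [← e, hz, smul_mul_assoc, one_mul]
    rcases scalar_det_one hdet with rfl | rfl
    · left; rw [hz', one_smul]
    · right; rw [hz', neg_smul, one_smul]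
  exact no_commuting_nonscalar h (centralizerOf ρbar (ρbar.ρ g))
    (centralizerOf_top_or_index_two ρbar _ key) (ρbar.ρ g) hg α v hv hgv (fun σ hσ => hσ)

/-- **B5(b).** `H` has no stable line. -/
theorem no_stable_line_of_normal (h : Hyp 𝒪 p ρbar S Smin) {H : Subgroup GQ}
    (hH : IsDetOneNormal ρbar H) (v : ρbar.V) (hv : v ≠ 0)
    (hstab : ∀ s ∈ H, ∃ c : ResidueField 𝒪, ρbar.ρ s v = c • v) : False := by
  -- some `g` moves the line
  obtain ⟨g, hg⟩ : ∃ g : GQ, ∀ c : ResidueField 𝒪, ρbar.ρ g v ≠ c • v := by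
    by_contra hcon
    push Not at hcon
    exact no_stable_line h ⊤ (Or.inl rfl) v hv (fun σ _ => hcon σ)
  set w := ρbar.ρ g v with hw
  obtain ⟨b, hb0, hb1⟩ := exists_basis_pair ρbar.finrank_eq hv hg
  -- translates of `v` are `H`-eigenvectors
  have claim1 : ∀ x : GQ, ∀ s ∈ H, ∃ c : ResidueField 𝒪,
      ρbar.ρ s (ρbar.ρ x v) = c • ρbar.ρ x v := by
    intro x s hs
    obtain ⟨c, hc⟩ := hstab _ (hH.conj_mem s hs x)
    refine ⟨c, ?_⟩
    have e : ρbar.ρ s (ρbar.ρ x v) = ρbar.ρ x (ρbar.ρ (x⁻¹ * s * x) v) := by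
      rw [← Module.End.mul_apply, ← Module.End.mul_apply, ← map_mul, ← map_mul]
      congr 2
      group
    rw [e, hc, map_smul]
  -- an `H`-eigenvector lies on one of the two lines
  obtain ⟨s₁, hs₁, hs₁ns⟩ := exists_nonscalar_mem h hH
  have claim2 : ∀ u : ρbar.V, (∀ s ∈ H, ∃ c : ResidueField 𝒪, ρbar.ρ s u = c • u) →
      (∃ c : ResidueField 𝒪, u = c • v) ∨ (∃ c : ResidueField 𝒪, u = c • w) := by
    intro u hu
    have hrepr : u = b.repr u 0 • v + b.repr u 1 • w := by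
      conv_lhs => rw [← b.sum_repr u]
      rw [Fin.sum_univ_two, hb0, hb1]
    by_cases h0 : b.repr u 0 = 0
    · right
      refine ⟨b.repr u 1, ?_⟩
      conv_lhs => rw [hrepr]
      rw [h0, zero_smul, zero_add]
    by_cases h1 : b.repr u 1 = 0
    · left
      refine ⟨b.repr u 0, ?_⟩
      conv_lhs => rw [hrepr]
      rw [h1, zero_smul, add_zero]
    exfalso
    obtain ⟨c₁, hc₁⟩ := hstab s₁ hs₁
    obtain ⟨c₂, hc₂⟩ := claim1 g s₁ hs₁
    obtain ⟨c₃, hc₃⟩ := hu s₁ hs₁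
    rw [← hw] at hc₂
    have e1 : ρbar.ρ s₁ u = (b.repr u 0 * c₁) • v + (b.repr u 1 * c₂) • w := by
      conv_lhs => rw [hrepr]
      rw [map_add, map_smul, map_smul, hc₁, hc₂, smul_smul, smul_smul]
    have e2 : c₃ • u = (c₃ * b.repr u 0) • v + (c₃ * b.repr u 1) • w := by
      conv_lhs => rw [hrepr]
      rw [smul_add, smul_smul, smul_smul]
    have e3 : (b.repr u 0 * c₁) • b 0 + (b.repr u 1 * c₂) • b 1
        = (c₃ * b.repr u 0) • b 0 + (c₃ * b.repr u 1) • b 1 := by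
      rw [hb0, hb1, ← e1, ← e2, hc₃]
    have e4 := congrArg (fun x => b.repr x) e3
    simp only [map_add, map_smul, Module.Basis.repr_self] at e4
    have e40 : b.repr u 0 * c₁ = c₃ * b.repr u 0 := by
      simpa using congrArg (fun f => f 0) e4
    have e41 : b.repr u 1 * c₂ = c₃ * b.repr u 1 := by
      simpa using congrArg (fun f => f 1) e4
    have hc13 : c₁ = c₃ := mul_left_cancel₀ h0 (by rw [e40, mul_comm])
    have hc23 : c₂ = c₃ := mul_left_cancel₀ h1 (by rw [e41, mul_comm])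
    apply hs₁ns c₁
    apply b.ext
    intro i
    fin_cases i
    · simpa [hb0] using hc₁
    · simpa [hb1, hc13, hc23] using hc₂
  -- the stabilizer of the line through `v` has index `≤ 2`
  have hidx : lineStab ρbar v = ⊤ ∨ (lineStab ρbar v).index = 2 := by
    apply top_or_index_two
    intro a c ha hc
    rw [mem_lineStab_iff ρbar hv] at ha hc ⊢
    have hav : ∃ c' : ResidueField 𝒪, ρbar.ρ a v = c' • w :=
      (claim2 _ (claim1 a)).resolve_left ha
    have hcv : ∃ c' : ResidueField 𝒪, ρbar.ρ c v = c' • w :=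
      (claim2 _ (claim1 c)).resolve_left hc
    obtain ⟨α, hα⟩ := hav
    obtain ⟨β, hβ⟩ := hcv
    have haw : (∃ c' : ResidueField 𝒪, ρbar.ρ a w = c' • v) ∨
        (∃ c' : ResidueField 𝒪, ρbar.ρ a w = c' • w) := by
      have := claim2 (ρbar.ρ (a * g) v) (claim1 (a * g))
      rw [map_mul, Module.End.mul_apply, ← hw] at this
      exact this
    rcases haw with ⟨γ, hγ⟩ | ⟨γ, hγ⟩
    · refine ⟨β * γ, ?_⟩
      rw [map_mul, Module.End.mul_apply, hβ, map_smul, hγ, smul_smul]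
    · exfalso
      -- `ρ̄(a)` would not be injective
      have e : ρbar.ρ a (γ • v - α • w) = 0 := by
        rw [map_sub, map_smul, map_smul, hα, hγ, smul_smul, smul_smul, mul_comm, sub_self]
      have e' : γ • v - α • w = 0 := by
        apply rho_injective ρbar a
        rw [e, map_zero]
      have hα0 : α ≠ 0 := by
        rintro rfl
        rw [zero_smul] at hα
        exact rho_ne_zero ρbar a hv hα
      apply hg (α⁻¹ * γ)
      have : α • w = γ • v := (sub_eq_zero.1 e').symm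
      calc w = α⁻¹ • (α • w) := by rw [smul_smul, inv_mul_cancel₀ hα0, one_smul]
        _ = (α⁻¹ * γ) • v := by rw [this, smul_smul]
  exact no_stable_line h (lineStab ρbar v) hidx v hv
    (fun σ hσ => (mem_lineStab_iff ρbar hv).1 hσ)

end Clifford

end Fermat.Agent.S56.H546

end
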