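import Fermat.Agent.S56.H546.Cyc

/-!
# S56 / P3 bridge, part B3–B4 (helper546): no stable line for subgroups of index `≤ 2`

Everything is `k`-rational.

* `exists_basis_pair` — two non-proportional vectors of a plane form a basis.
* `no_stable_line` — under `Hyp`, a subgroup `G'` of `G_ℚ` with `G' = ⊤` or of index `2` has no
  stable line in `ρ̄.V`.
* `top_or_index_two` — a subgroup whose complement multiplies into it is `⊤` or of index `2`.
* `no_commuting_nonscalar` — such a `G'` cannot commute with a non-scalar endomorphism having an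
  eigenvalue in `k`.
-/

set_option autoImplicit false

open Polynomial IsLocalRing TensorProduct

noncomputable section

namespace Fermat.Agent.S56.H546

open Fermat.Agent.S56

section Plane

variable {k : Type} [Field k] {V : Type} [AddCommGroup V] [Module k V]

/-- Two non-proportional vectors of a plane form a basis. -/
theorem exists_basis_pair (hV : Module.finrank k V = 2) {v w : V} (hv : v ≠ 0)
    (hw : ∀ c : k, w ≠ c • v) :
    ∃ b : Module.Basis (Fin 2) k V, b 0 = v ∧ b 1 = w := by
  have hli : LinearIndependent k ![v, w] := by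
    rw [LinearIndependent.pair_iff' hv]
    intro a ha
    exact hw a ha.symm
  have : Module.Finite k V := Module.finite_of_finrank_eq_succ hV
  refine ⟨basisOfLinearIndependentOfCardEqFinrank hli (by simp [hV]), ?_, ?_⟩ <;> simp

/-- In a plane, an endomorphism with two non-proportional eigenvectors for the same eigenvalue is
scalar. -/
theorem eq_smul_one_of_two_eigenvectors (hV : Module.finrank k V = 2) {A : Module.End k V}
    {α : k} {v w : V} (hv : v ≠ 0) (hw : ∀ c : k, w ≠ c • v) (hAv : A v = α • v)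
    (hAw : A w = α • w) : A = α • (1 : Module.End k V) := by
  obtain ⟨b, hb0, hb1⟩ := exists_basis_pair hV hv hw
  apply b.ext
  intro i
  fin_cases i
  · simpa [hb0] using hAv
  · simpa [hb1] using hAw

/-- In a plane, the eigenspace of a non-scalar endomorphism is a line. -/
theorem eigen_line (hV : Module.finrank k V = 2) {A : Module.End k V}
    (hA : ∀ z : k, A ≠ z • (1 : Module.End k V)) {α : k} {v w : V} (hv : v ≠ 0)
    (hAv : A v = α • v) (hAw : A w = α • w) : ∃ c : k, w = c • v := by
  by_contra hcon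
  push Not at hcon
  exact hA α (eq_smul_one_of_two_eigenvectors hV hv hcon hAv hAw)

end Plane

section Index

variable {G : Type} [Group G]

/-- A subgroup such that the product of two elements outside it lies in it is everything or of
index two. -/
theorem top_or_index_two (G' : Subgroup G) (h : ∀ a b : G, a ∉ G' → b ∉ G' → a * b ∈ G') :
    G' = ⊤ ∨ G'.index = 2 := by
  by_cases htop : G' = ⊤
  · exact Or.inl htop
  · right
    obtain ⟨a, ha⟩ : ∃ a : G, a ∉ G' := by
      by_contra hcon
      push Not at hcon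
      exact htop (Subgroup.eq_top_iff' G' |>.2 hcon)
    rw [Subgroup.index_eq_two_iff]
    refine ⟨a, fun b => ?_⟩
    by_cases hb : b ∈ G'
    · refine Or.inr ⟨hb, fun hba => ha ?_⟩
      have := G'.mul_mem (G'.inv_mem hb) hba
      simpa using this
    · exact Or.inl ⟨h b a hb ha, hb⟩

end Index

section NoLine

variable {𝒪 : Type} [CommRing 𝒪] [IsDomain 𝒪] [IsDiscreteValuationRing 𝒪]
  {p : ℕ} {ρbar : ResidualGaloisRep (ResidueField 𝒪)} {S Smin : Finset ℕ}

/-- Auxiliary: the line spanned by `1 ⊗ v` in a base change is stable, nonzero and proper. -/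
theorem baseChange_line_aux (K : Type) [Field K] [Algebra (ResidueField 𝒪) K]
    (G' : Subgroup GQ) (v : ρbar.V) (hv : v ≠ 0)
    (hstab : ∀ σ ∈ G', ∃ c : ResidueField 𝒪, ρbar.ρ σ v = c • v) :
    ∃ W : Submodule K (ρbar.baseChange K).V,
      (∀ σ ∈ G', ∀ x ∈ W, (ρbar.baseChange K).ρ σ x ∈ W) ∧ W ≠ ⊥ ∧ W ≠ ⊤ := by
  have hne : (1 : K) ⊗ₜ[ResidueField 𝒪] v ≠ 0 := by
    have hinj := Module.FaithfullyFlat.tensorProduct_mk_injective (A := ResidueField 𝒪) (B := K)
      ρbar.V
    intro h0
    apply hv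
    apply hinj
    simpa using h0
  refine ⟨Submodule.span K {(1 : K) ⊗ₜ[ResidueField 𝒪] v}, ?_, ?_, ?_⟩
  · intro σ hσ x hx
    obtain ⟨a, rfl⟩ := Submodule.mem_span_singleton.1 hx
    obtain ⟨c, hc⟩ := hstab σ hσ
    have e : (ρbar.baseChange K).ρ σ (a • ((1 : K) ⊗ₜ[ResidueField 𝒪] v))
        = (a * algebraMap (ResidueField 𝒪) K c) • ((1 : K) ⊗ₜ[ResidueField 𝒪] v) := by
      change (LinearMap.baseChange K (ρbar.ρ σ)) (a • ((1 : K) ⊗ₜ[ResidueField 𝒪] v)) = _
      rw [map_smul, LinearMap.baseChange_tmul, hc, TensorProduct.tmul_smul, mul_smul,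
        algebraMap_smul]
    rw [e]
    exact Submodule.smul_mem _ _ (Submodule.mem_span_singleton_self _)
  · intro hbot
    rw [Submodule.span_singleton_eq_bot] at hbot
    exact hne hbot
  · intro htop
    have h1 : Module.finrank K (Submodule.span K {(1 : K) ⊗ₜ[ResidueField 𝒪] v}) = 1 :=
      finrank_span_singleton hne
    rw [htop, finrank_top] at h1
    have h2 : Module.finrank K (ρbar.baseChange K).V = 2 := (ρbar.baseChange K).finrank_eq
    have h3 : (1 : ℕ) = 2 := h1.symm.trans h2
    omega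

/-- **B3.** Under `Hyp`, a subgroup which is everything or of index two has no stable line. -/
theorem no_stable_line (h : Hyp 𝒪 p ρbar S Smin) (G' : Subgroup GQ)
    (hG' : G' = ⊤ ∨ G'.index = 2) (v : ρbar.V) (hv : v ≠ 0)
    (hstab : ∀ σ ∈ G', ∃ c : ResidueField 𝒪, ρbar.ρ σ v = c • v) : False := by
  rcases hG' with htop | hidx
  · obtain ⟨W, hW, hbot, hWtop⟩ :=
      baseChange_line_aux (AlgebraicClosure (ResidueField 𝒪)) G' v hv hstab
    have := h.habs W (fun σ x hx => hW σ (by rw [htop]; trivial) x hx)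
    rcases this with h1 | h1
    · exact hbot h1
    · exact hWtop h1
  · obtain ⟨W, hW, hbot, hWtop⟩ := baseChange_line_aux (ResidueField 𝒪) G' v hv hstab
    have := h.hTW (ResidueField 𝒪) G' hidx W hW
    rcases this with h1 | h1
    · exact hbot h1
    · exact hWtop h1

/-- Every `ρ̄(σ)` has an eigenvector with eigenvalue in `k`. -/
theorem exists_eigenvector (h : Hyp 𝒪 p ρbar S Smin) (σ : GQ) :
    ∃ (α : ResidueField 𝒪) (v : ρbar.V), v ≠ 0 ∧ ρbar.ρ σ v = α • v := by
  obtain ⟨α, β, hαβ⟩ := h.hsplit σ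
  have hroot : (LinearMap.charpoly (ρbar.ρ σ)).IsRoot α := by
    rw [hαβ]; simp
  have hev := (Module.End.hasEigenvalue_iff_isRoot_charpoly (ρbar.ρ σ) α).2 hroot
  obtain ⟨v, hv⟩ := hev.exists_hasEigenvector
  exact ⟨α, v, hv.2, hv.apply_eq_smul⟩

/-- **L1.** A subgroup of index `≤ 2` cannot commute with a non-scalar endomorphism which has an
eigenvalue in `k`. -/
theorem no_commuting_nonscalar (h : Hyp 𝒪 p ρbar S Smin) (G' : Subgroup GQ)
    (hG' : G' = ⊤ ∨ G'.index = 2) (A : Module.End (ResidueField 𝒪) ρbar.V)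
    (hA : ∀ z : ResidueField 𝒪, A ≠ z • (1 : Module.End (ResidueField 𝒪) ρbar.V))
    (α : ResidueField 𝒪) (v : ρbar.V) (hv : v ≠ 0) (hAv : A v = α • v)
    (hcomm : ∀ σ ∈ G', ρbar.ρ σ * A = A * ρbar.ρ σ) : False := by
  refine no_stable_line h G' hG' v hv (fun σ hσ => ?_)
  have h1 : A (ρbar.ρ σ v) = α • (ρbar.ρ σ v) := by
    have := congrArg (fun f : Module.End (ResidueField 𝒪) ρbar.V => f v) (hcomm σ hσ)
    simp only [Module.End.mul_apply] at this
    rw [← this, hAv, map_smul]
  exact eigen_line ρbar.finrank_eq hA hv hAv h1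

/-- Some `ρ̄(g)` is not scalar. -/
theorem exists_nonscalar (h : Hyp 𝒪 p ρbar S Smin) :
    ∃ g : GQ, ∀ z : ResidueField 𝒪,
      ρbar.ρ g ≠ z • (1 : Module.End (ResidueField 𝒪) ρbar.V) := by
  by_contra hcon
  push Not at hcon
  obtain ⟨v, hv⟩ : ∃ v : ρbar.V, v ≠ 0 := by
    have : Nontrivial ρbar.V := Module.nontrivial_of_finrank_pos (R := ResidueField 𝒪)
      (by rw [ρbar.finrank_eq]; norm_num)
    exact exists_ne 0
  refine no_stable_line h ⊤ (Or.inl rfl) v hv (fun σ _ => ?_)
  obtain ⟨z, hz⟩ := hcon σ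
  exact ⟨z, by rw [hz]; simp⟩

end NoLine

end Fermat.Agent.S56.H546

end
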